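import Fermat.Agent.S18.G.Norm
import Fermat.Agent.S18.Red
import Fermat.Agent.S48.T18.B.DVR

/-! # T18 (twin of S18) task G1 -/

set_option autoImplicit false
set_option synthInstance.maxHeartbeats 400000

noncomputable section

namespace Fermat.Agent.T24.T18

open Fermat.Agent.S18 Fermat.Agent.S24

open Polynomial IntermediateField ModularCurve AlgebraicCurve

theorem tNum_coeff_mem (D : ℕ) (b : ZMod D) (n : ℕ) :
    PowerSeries.coeff n (tNum D b) ∈ Submodule.span ℤ ({1, c0 D b} : Set ℚ) := by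
  rw [tNum, PowerSeries.coeff_mk]
  split_ifs
  · exact Submodule.subset_span (Or.inr rfl)
  · have : ((sig D b n : ℕ) : ℚ) = ((sig D b n : ℕ) : ℤ) • (1 : ℚ) := by simp
    rw [this]
    exact Submodule.smul_mem _ _ (Submodule.subset_span (Or.inl rfl))

theorem Tq_coeff_mem (D : ℕ) (b : ZMod D) (n : ℤ) :
    (Tq D b).coeff n ∈ Submodule.span ℤ ({1, c0 D b} : Set ℚ) := by
  have hn : n = (n + 1) + (-1) := by ring
  rw [Tq, hn, HahnSeries.coeff_single_mul_add, one_mul]
  change ((_ : PowerSeries ℚ) : LaurentSeries ℚ).coeff (n + 1) ∈ _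
  rw [PowerSeries.coeff_coe]
  split_ifs
  · exact zero_mem _
  · rw [PowerSeries.coeff_mul]
    refine Submodule.sum_mem _ fun ij _ => ?_
    rw [PowerSeries.coeff_map, mul_comm]
    have : ∀ (z : ℤ) (x : ℚ), (Int.castRingHom ℚ) z * x = z • x := fun z x => by simp
    rw [this]
    exact Submodule.smul_mem _ _ (tNum_coeff_mem D b _)

theorem Tser_fgCoeff (D e : ℕ) (b : ZMod D) :
    ∃ L : Submodule ℤ Kb, L.FG ∧ ∀ n, (Tser D e b).coeff n ∈ L := by
  refine ⟨(Submodule.span ℤ ({1, c0 D b} : Set ℚ)).map (algebraMap ℚ Kb).toIntAlgHom.toLinearMap,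
    (Submodule.fg_span (by simp)).map _, fun n => ?_⟩
  rw [Tser]
  split_ifs with h
  · exact zero_mem _
  · haveI : NeZero e := ⟨h⟩
    rw [coeffEmb_coeff]
    refine ⟨_, ?_, rfl⟩
    by_cases hk : (e : ℤ) ∣ n
    · obtain ⟨m, rfl⟩ := hk
      rw [qExpand_coeff_mul]
      exact Tq_coeff_mem D b m
    · rw [qExpand_coeff_of_not_dvd e _ hk]
      exact zero_mem _

/-- the coefficients of an element of `ℚ̄[j_d]` lie in a finitely generated `ℤ`-module. -/
theorem norm_fgCoeff (N : ℕ) [NeZero N] [Cond N] (f : LaurentSeries Kb) (hf : f ∈ Fermat.Agent.T24.A0 N) :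
    ∃ L : Submodule ℤ Kb, L.FG ∧ ∀ n, f.coeff n ∈ L := by
  have hf' : f ∈ Algebra.adjoin Kb (Fermat.Agent.T24.fGens N) := hf
  induction hf' using Algebra.adjoin_induction with
  | mem x hx =>
    rcases hx with ⟨d, hd, rfl⟩ | ⟨e, b, -, rfl⟩
    · have : NeZero d := ⟨fun h => NeZero.ne N (by subst h; simpa using hd)⟩
      refine ⟨Submodule.span ℤ {1}, Submodule.fg_span (Set.finite_singleton _), fun n => ?_⟩
      have : Fermat.Agent.S24.Jser d = coeffMap (Int.castRingHom Kb) (qExpand ℤ d (jqModC ℤ)) := by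
        rw [Fermat.Agent.T24.phi_Jser_of_ne, jqNModC, coeffMap_qExpand, coeffMap_jqModC]
      rw [this, coeffMap_coeff, Submodule.mem_span_singleton]
      exact ⟨((qExpand ℤ d) (jqModC ℤ)).coeff n, by simp⟩
    · exact Tser_fgCoeff _ e b
  | algebraMap r =>
    refine ⟨Submodule.span ℤ {r}, Submodule.fg_span (Set.finite_singleton _), fun n => ?_⟩
    rw [algebraMap_laurentSeries_eq_single, HahnSeries.coeff_single]
    split_ifs
    · exact Submodule.subset_span rfl
    · exact zero_mem _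
  | add x y hx hy ihx ihy =>
    obtain ⟨L1, h1, h1'⟩ := ihx hx
    obtain ⟨L2, h2, h2'⟩ := ihy hy
    refine ⟨L1 ⊔ L2, h1.sup h2, fun n => ?_⟩
    rw [HahnSeries.coeff_add]
    exact add_mem (Submodule.mem_sup_left (h1' n)) (Submodule.mem_sup_right (h2' n))
  | mul x y hx hy ihx ihy =>
    obtain ⟨L1, h1, h1'⟩ := ihx hx
    obtain ⟨L2, h2, h2'⟩ := ihy hy
    refine ⟨L1 * L2, h1.mul h2, fun n => ?_⟩
    rw [HahnSeries.coeff_mul]
    exact Submodule.sum_mem _ fun ij _ => Submodule.mul_mem_mul (h1' _) (h2' _)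

/-- among the coefficients of a nonzero series with coefficients in a f.g. `ℤ`-module one has
maximal valuation. -/
theorem norm_exists_max {ℓ : ℕ} (hℓ : ℓ.Prime) (A : ValuationSubring Kb) (hA : A.LiesOverPrime ℓ)
    (f : LaurentSeries Kb) (hf : f ≠ 0) (L : Submodule ℤ Kb) (hL : L.FG)
    (hfL : ∀ n, f.coeff n ∈ L) :
    ∃ n0, f.coeff n0 ≠ 0 ∧ ∀ n, (f.coeff n0)⁻¹ * f.coeff n ∈ A := by
  obtain ⟨T, rfl⟩ := hL
  let K : IntermediateField ℚ Kb := IntermediateField.adjoin ℚ (T : Set Kb)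
  have : FiniteDimensional ℚ K :=
    IntermediateField.finiteDimensional_adjoin (fun x _ => (AlgebraicClosure.isAlgebraic ℚ).isIntegral.isIntegral x)
  have : NumberField K := { to_charZero := inferInstance, to_finiteDimensional := inferInstance }
  let ι : K →+* Kb := algebraMap K Kb
  let R : ValuationSubring K := A.comap ι
  have : IsDiscreteValuationRing R := isDVR_comap ι A hℓ hA
  let Tk : Set K := {t | (t : Kb) ∈ T}
  have hTk : Tk.Finite := by
    apply Set.Finite.preimage (f := fun t : K => (t : Kb)) (Subtype.val_injective.injOn)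
    exact T.finite_toSet
  let P : Submodule R K := Submodule.span R Tk
  have : IsNoetherian R P := isNoetherian_of_fg_of_noetherian P (Submodule.fg_span hTk)
  have hlift : ∀ x ∈ Submodule.span ℤ (T : Set Kb), ∃ y ∈ P, (y : Kb) = x := by
    intro x hx
    induction hx using Submodule.span_induction with
    | mem t ht => exact ⟨⟨t, IntermediateField.subset_adjoin _ _ ht⟩, Submodule.subset_span ht, rfl⟩
    | zero => exact ⟨0, zero_mem _, rfl⟩
    | add x y _ _ hx hy =>
      obtain ⟨x', hx', rfl⟩ := hx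
      obtain ⟨y', hy', rfl⟩ := hy
      exact ⟨x' + y', add_mem hx' hy', rfl⟩
    | smul z x _ hx =>
      obtain ⟨x', hx', rfl⟩ := hx
      exact ⟨z • x', zsmul_mem hx' z, by simp⟩
  choose g hgP hg using fun n => hlift (f.coeff n) (hfL n)
  have hfg : (Submodule.span R (Set.range g)).FG := by
    apply Submodule.FG.of_le_of_isNoetherian (T := P)
    rw [Submodule.span_le]
    rintro _ ⟨n, rfl⟩
    exact hgP n
  obtain ⟨s', hs', hspan⟩ := (Submodule.fg_span_iff_fg_span_finset_subset _).1 hfg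
  obtain ⟨n1, hn1⟩ : ∃ n1, f.coeff n1 ≠ 0 := by
    by_contra h
    push Not at h
    exact hf (by ext n; simpa using h n)
  have hne : s'.Nonempty := by
    by_contra h
    rw [Finset.not_nonempty_iff_eq_empty] at h
    rw [h, Finset.coe_empty, Submodule.span_empty] at hspan
    have : g n1 ∈ (⊥ : Submodule R K) := hspan ▸ Submodule.subset_span ⟨n1, rfl⟩
    rw [Submodule.mem_bot] at this
    apply hn1
    rw [← hg n1, this]
    rfl
  obtain ⟨x0, hx0, hmax⟩ := Finset.exists_max_image s' (fun y : K => A.valuation (y : Kb)) hne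
  have hall : ∀ y ∈ Submodule.span R (s' : Set K), A.valuation (y : Kb) ≤ A.valuation (x0 : Kb) := by
    intro y hy
    induction hy using Submodule.span_induction with
    | mem t ht => exact hmax t ht
    | zero => simp
    | add x y _ _ hx hy =>
      exact (A.valuation.map_add _ _).trans (max_le hx hy)
    | smul r x _ hx =>
      have h1 : ((r • x : K) : Kb) = ι (r : K) * (x : Kb) := rfl
      have h2 : ι (r : K) ∈ A := r.2
      rw [h1, map_mul]
      calc A.valuation (ι (r : K)) * A.valuation (x : Kb) ≤ 1 * A.valuation (x : Kb) := by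
            gcongr
            exact (A.valuation_le_one_iff _).2 h2
        _ = A.valuation (x : Kb) := one_mul _
        _ ≤ _ := hx
  obtain ⟨n0, rfl⟩ := hs' hx0
  have hall' : ∀ n, A.valuation (f.coeff n) ≤ A.valuation (f.coeff n0) := by
    intro n
    rw [← hg n, ← hg n0]
    exact hall _ (hspan ▸ Submodule.subset_span ⟨n, rfl⟩)
  have hn0 : f.coeff n0 ≠ 0 := by
    intro h
    have := hall' n1
    rw [h, map_zero, le_zero_iff, map_eq_zero] at this
    exact hn1 this
  refine ⟨n0, hn0, fun n => ?_⟩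
  rw [← A.valuation_le_one_iff, map_mul, map_inv₀]
  have hv0 : A.valuation (f.coeff n0) ≠ 0 := by
    rw [Ne, map_eq_zero]; exact hn0
  rw [inv_mul_le_iff₀ (zero_lt_iff.2 hv0), mul_one]
  exact hall' n

/-- normalisation of an element of `ℚ̄[j_d]`. -/
theorem norm_exists_A0 {ℓ : ℕ} (hℓ : ℓ.Prime) (A : ValuationSubring Kb) (hA : A.LiesOverPrime ℓ)
    (N : ℕ) [NeZero N] [Cond N] (f : LaurentSeries Kb) (hf : f ∈ Fermat.Agent.T24.A0 N) (hf0 : f ≠ 0) :
    ∃ (c : Kb) (a' : LaurentSeries A), c ≠ 0 ∧ incA A a' ∈ modularFunctionFieldBar N ∧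
      redA A a' ≠ 0 ∧ f = HahnSeries.C c * incA A a' := by
  obtain ⟨L, hL, hfL⟩ := norm_fgCoeff N f hf
  obtain ⟨n0, hn0, hall⟩ := norm_exists_max hℓ A hA f hf0 L hL hfL
  have hcoeff : ∀ n, (HahnSeries.C (f.coeff n0)⁻¹ * f).coeff n = (f.coeff n0)⁻¹ * f.coeff n := by
    intro n
    rw [HahnSeries.C_mul_eq_smul, HahnSeries.coeff_smul, smul_eq_mul]
  obtain ⟨a', ha'⟩ := exists_incA_eq (A := A) (a := HahnSeries.C (f.coeff n0)⁻¹ * f)
    (fun n => by rw [hcoeff]; exact hall n)
  refine ⟨f.coeff n0, a', hn0, ?_, ?_, ?_⟩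
  · rw [ha']
    apply mul_mem _ (Fermat.Agent.T24.A0_le N f hf)
    have : (HahnSeries.C (f.coeff n0)⁻¹ : LaurentSeries Kb)
        = algebraMap Kb (LaurentSeries Kb) (f.coeff n0)⁻¹ := by
      rw [algebraMap_laurentSeries_eq_single]; rfl
    rw [this]
    exact IntermediateField.algebraMap_mem _ _
  · intro h
    have h1 := (smallA_incA_iff A a').2 h n0
    rw [ha', hcoeff, inv_mul_cancel₀ hn0, ValuationSubring.mem_nonunits_iff, map_one] at h1
    exact lt_irrefl _ h1
  · rw [ha', ← mul_assoc, ← map_mul, mul_inv_cancel₀ hn0, map_one, one_mul]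

/-- task G1 (normalisation).  `w = a₁/b₁` with `a₁, b₁ ∈ ℚ̄[j_d]`; `a₁ = ∑ cᵢ Mᵢ`, `Mᵢ ∈ ℤ((q))`,
`K = ℚ(cᵢ)`, `R = A ∩ K` is a DVR (`isDVR_comap`) with uniformiser `π`; the set of `n : ℤ` with
`π^n a₁` integral is non-empty and bounded below; at its minimum `π^n a₁` is integral and not small. -/
theorem exists_normalised {ℓ : ℕ} (hℓ : ℓ.Prime) (A : ValuationSubring Kb) (hA : A.LiesOverPrime ℓ)
    (N : ℕ) [NeZero N] [Cond N] (w : FN N) (hw : w ≠ 0) :
    ∃ (c : Kb) (a' b' : LaurentSeries A), c ≠ 0 ∧ incA A a' ∈ modularFunctionFieldBar N ∧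
      incA A b' ∈ modularFunctionFieldBar N ∧ redA A a' ≠ 0 ∧ redA A b' ≠ 0 ∧
      w.1 * incA A b' = HahnSeries.C c * incA A a' := by
  obtain ⟨u, hu, v, hv, hv0, huv⟩ := Fermat.Agent.T24.exists_div_A0 N w.1 w.2
  have hu0 : u ≠ 0 := by
    intro h
    apply hw
    apply Subtype.ext
    rw [huv, h, zero_div]
    rfl
  obtain ⟨c1, a', hc1, ha1, ha2, ha3⟩ := norm_exists_A0 hℓ A hA N u hu hu0
  obtain ⟨c2, b', hc2, hb1, hb2, hb3⟩ := norm_exists_A0 hℓ A hA N v hv hv0
  refine ⟨c1 / c2, a', b', div_ne_zero hc1 hc2, ha1, hb1, ha2, hb2, ?_⟩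
  have hC2 : (HahnSeries.C c2 : LaurentSeries Kb) ≠ 0 := by
    rw [Ne, map_eq_zero]; exact hc2
  have h1 : w.1 * v = u := by rw [huv, div_mul_cancel₀ _ hv0]
  rw [hb3, ha3] at h1
  rw [map_div₀]
  field_simp
  linear_combination h1

end Fermat.Agent.T24.T18
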