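import Fermat.Agent.S18.G.Step
import Fermat.Agent.S48.T18.G.Norm

/-! # T18 (twin of S18) task G2 -/

set_option autoImplicit false
set_option synthInstance.maxHeartbeats 400000

noncomputable section

namespace Fermat.Agent.T24.T18

open Fermat.Agent.S18 Fermat.Agent.S24

open Polynomial IntermediateField ModularCurve AlgebraicCurve

namespace Step

theorem incA_C (A : ValuationSubring Kb) (c : A) :
    incA A (HahnSeries.C c) = HahnSeries.C (c : Kb) := coeffMap_single _ _ _

theorem redA_C (A : ValuationSubring Kb) (c : A) :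
    redA A (HahnSeries.C c) = HahnSeries.C (IsLocalRing.residue A c) := coeffMap_single _ _ _

theorem C_mem (N : ℕ) [Cond N] (c : Kb) : (HahnSeries.C c : LaurentSeries Kb) ∈ modularFunctionFieldBar N := by
  have : (HahnSeries.C c : LaurentSeries Kb) = algebraMap Kb (LaurentSeries Kb) c := by
    rw [algebraMap_laurentSeries_eq_single]
    rfl
  rw [this]
  exact IntermediateField.algebraMap_mem _ _

/-- half of the Gauss lemma. -/
theorem mem_of_eq {A : ValuationSubring Kb} {d : Kb} {y z : LaurentSeries A}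
    (hz : redA A z ≠ 0) (h : incA A y = HahnSeries.C d * incA A z) : d ∈ A := by
  have : ∃ n, (redA A z).coeff n ≠ 0 := by
    by_contra hcon
    push Not at hcon
    exact hz (HahnSeries.ext (funext hcon))
  obtain ⟨n, hn⟩ := this
  rw [coeffMap_coeff, Ne, IsLocalRing.residue_eq_zero_iff, IsLocalRing.mem_maximalIdeal,
    mem_nonunits_iff, not_not] at hn
  obtain ⟨u, hu⟩ := hn
  have h1 := congrArg (fun s => s.coeff n) h
  simp only [HahnSeries.C_mul_eq_smul, HahnSeries.coeff_smul, coeffMap_coeff, smul_eq_mul] at h1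
  have h2 : ((z.coeff n : A) : Kb) * ((u⁻¹ : Aˣ) : A) = 1 := by
    rw [← hu]
    exact_mod_cast congrArg Subtype.val (u.mul_inv)
  have h3 : d = ((y.coeff n * ((u⁻¹ : Aˣ) : A) : A) : Kb) := by
    push_cast
    have h1' : ((y.coeff n : A) : Kb) = d * ((z.coeff n : A) : Kb) := h1
    rw [h1', mul_assoc, h2, mul_one]
  rw [h3]
  exact Subtype.mem _

theorem mem_of_pow_mem {A : ValuationSubring Kb} {c : Kb} {p : ℕ} (hp : p ≠ 0) (h : c ^ p ∈ A) :
    c ∈ A := by
  rw [← ValuationSubring.valuation_le_one_iff] at h ⊢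
  rw [map_pow] at h
  exact (pow_le_one_iff hp).1 h

/-- the reduction of a primitive `p`-th root of unity is primitive (`p ≠ ℓ` primes). -/
theorem exists_zeta {ℓ : ℕ} (hℓ : ℓ.Prime) (A : ValuationSubring Kb) (hA : A.LiesOverPrime ℓ)
    (p : ℕ) (hp : p.Prime) (hpℓ : p ≠ ℓ) :
    ∃ ζ : A, ζ ^ p = 1 ∧ IsPrimitiveRoot (IsLocalRing.residue A ζ) p := by
  have : NeZero p := ⟨hp.ne_zero⟩
  have : NeZero (p : ℚ) := ⟨by exact_mod_cast hp.ne_zero⟩
  obtain ⟨ζ, hζ⟩ := HasEnoughRootsOfUnity.exists_primitiveRoot Kb p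
  have hζA : ζ ∈ A := DVR.mem_of_isIntegral A (hζ.isIntegral hp.pos)
  refine ⟨⟨ζ, hζA⟩, Subtype.ext (by push_cast; exact hζ.pow_eq_one), ?_⟩
  set z : kA A := IsLocalRing.residue A ⟨ζ, hζA⟩ with hz
  have hzp : z ^ p = 1 := by
    rw [hz, ← map_pow]
    have : (⟨ζ, hζA⟩ : A) ^ p = 1 := Subtype.ext (by push_cast; exact hζ.pow_eq_one)
    rw [this, map_one]
  have hz1 : z ≠ 1 := by
    intro h1
    have hsum : ∑ i ∈ Finset.range p, (⟨ζ, hζA⟩ : A) ^ i = 0 := by
      apply Subtype.ext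
      push_cast
      exact hζ.geom_sum_eq_zero hp.one_lt
    have h2 := congrArg (IsLocalRing.residue A) hsum
    rw [map_sum, map_zero] at h2
    simp only [map_pow, ← hz, h1, one_pow, Finset.sum_const, Finset.card_range, nsmul_eq_mul,
      mul_one] at h2
    -- `p = 0` and `ℓ = 0` in `k`
    have h3 : ((ℓ : ℕ) : kA A) = 0 := by
      have : (ℓ : A) ∈ IsLocalRing.maximalIdeal A := by
        rw [← ValuationSubring.coe_mem_nonunits_iff]
        exact_mod_cast hA
      have := (IsLocalRing.residue_eq_zero_iff _).2 this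
      rwa [map_natCast] at this
    have hcop : Nat.Coprime p ℓ := (Nat.coprime_primes hp hℓ).2 hpℓ
    obtain ⟨s, t, hst⟩ := Nat.isCoprime_iff_coprime.2 hcop
    have h4 := congrArg (fun n : ℤ => (n : kA A)) hst
    simp only [Int.cast_add, Int.cast_mul, Int.cast_natCast, h2, h3, mul_zero, add_zero,
      Int.cast_one] at h4
    exact zero_ne_one h4
  have := orderOf_eq_prime (p := p) (hp := ⟨hp⟩) hzp hz1
  rw [← this]
  exact IsPrimitiveRoot.orderOf z

end Step

/-- task G2.  `a/b = w^p` (`h1`), `w b' = c a'` (G1), `c^p a'^p b = a b'^p` ⟹ `c` is a unit of `A`;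
reduce: `(c a')^p = b'^p` in the field `k((q))`, so `c a' ≡ ζ^i b'`; apply `h2` to
`(c a', ζ^i b')`. -/
theorem cc_step (N : ℕ) [NeZero N] [Cond N] {ℓ : ℕ} (hℓ : ℓ.Prime) (p m : ℕ) (hp : p.Prime) (hpℓ : p ≠ ℓ)
    (h1 : CCStatement N ℓ p) (h2 : CCStatement N ℓ m) : CCStatement N ℓ (p * m) := by
  intro A hA a b ha hb hb' hab hord
  have : NeZero p := ⟨hp.ne_zero⟩
  obtain ⟨w, hw⟩ := h1 A hA a b ha hb hb' hab
    (fun v => Dvd.dvd.trans ⟨(m : ℤ), by push_cast; ring⟩ (hord v))
  obtain ⟨a₀, ha₀⟩ := exists_incA_eq ha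
  obtain ⟨b₀, hb₀⟩ := exists_incA_eq hb
  have hrb : redA A b₀ ≠ 0 := by
    rw [Ne, ← smallA_incA_iff, hb₀]; exact hb'
  have hrab : redA A a₀ = redA A b₀ := by
    rw [← sub_eq_zero, ← map_sub, ← smallA_incA_iff, map_sub, ha₀, hb₀]; exact hab
  have hb0 : b ≠ 0 := by
    rintro rfl
    apply hrb
    have : b₀ = 0 := incA_injective A (by rw [hb₀, map_zero]; rfl)
    rw [this, map_zero]
  have ha0 : a ≠ 0 := by
    rintro rfl
    apply hrb
    have : a₀ = 0 := incA_injective A (by rw [ha₀, map_zero]; rfl)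
    rw [← hrab, this, map_zero]
  have hw0 : w ≠ 0 := by
    rintro rfl
    rw [zero_pow hp.ne_zero] at hw
    exact div_ne_zero ha0 hb0 hw.symm
  obtain ⟨c, a', b', hc, ha'F, hb'F, hra', hrb', hwc⟩ := exists_normalised hℓ A hA N w hw0
  -- the key identity
  have hw1 : w.1 ^ p * b.1 = a.1 := by
    have : w ^ p * b = a := by rw [hw, div_mul_cancel₀ _ hb0]
    exact congrArg Subtype.val this
  have key : incA A (a₀ * b' ^ p) = HahnSeries.C (c ^ p) * incA A (a' ^ p * b₀) := by
    rw [map_mul, map_mul, map_pow, map_pow, map_pow, ha₀, hb₀, ← hw1]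
    calc w.1 ^ p * b.1 * incA A b' ^ p = (w.1 * incA A b') ^ p * b.1 := by ring
      _ = _ := by rw [hwc]; ring
  have key' : incA A (a' ^ p * b₀) = HahnSeries.C ((c ^ p)⁻¹) * incA A (a₀ * b' ^ p) := by
    rw [key, ← mul_assoc, ← map_mul, inv_mul_cancel₀ (pow_ne_zero p hc), map_one, one_mul]
  have hr1 : redA A (a' ^ p * b₀) ≠ 0 := by
    rw [map_mul, map_pow]; exact mul_ne_zero (pow_ne_zero p hra') hrb
  have hr2 : redA A (a₀ * b' ^ p) ≠ 0 := by
    rw [map_mul, map_pow, hrab]; exact mul_ne_zero hrb (pow_ne_zero p hrb')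
  have hcA : c ∈ A := Step.mem_of_pow_mem hp.ne_zero (Step.mem_of_eq hr1 key)
  have hcA' : c⁻¹ ∈ A := Step.mem_of_pow_mem hp.ne_zero (by
    rw [inv_pow]; exact Step.mem_of_eq hr2 key')
  set c₀ : A := ⟨c, hcA⟩ with hc₀
  have hc₀u : IsLocalRing.residue A c₀ ≠ 0 := by
    rw [Ne, IsLocalRing.residue_eq_zero_iff, IsLocalRing.mem_maximalIdeal, mem_nonunits_iff, not_not]
    exact IsUnit.of_mul_eq_one (⟨c⁻¹, hcA'⟩ : A) (Subtype.ext (mul_inv_cancel₀ hc))
  obtain ⟨a'', ha''⟩ : ∃ x : LaurentSeries A, x = HahnSeries.C c₀ * a' := ⟨_, rfl⟩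
  have hinc0 : incA A a'' = HahnSeries.C c * incA A a' := by
    rw [ha'', map_mul, Step.incA_C]
  have hinc'' : incA A a'' = w.1 * incA A b' := by
    rw [ha'', map_mul, Step.incA_C, hwc]
  have hra'' : redA A a'' ≠ 0 := by
    rw [ha'', map_mul, Step.redA_C]
    exact mul_ne_zero (fun h => hc₀u (HahnSeries.C_injective (by rw [h, map_zero]))) hra'
  have hid : a₀ * b' ^ p = a'' ^ p * b₀ := by
    apply incA_injective A
    rw [key, map_mul, map_mul, map_pow, map_pow, map_pow, hinc0]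
    ring
  have hid2 : redA A b' ^ p = redA A a'' ^ p := by
    have := congrArg (redA A) hid
    rw [map_mul, map_mul, map_pow, map_pow, hrab, mul_comm] at this
    exact mul_right_cancel₀ hrb this
  obtain ⟨ζ, hζp, hζ⟩ := Step.exists_zeta hℓ A hA p hp hpℓ
  have hζC : IsPrimitiveRoot (HahnSeries.C (IsLocalRing.residue A ζ) : LaurentSeries (kA A)) p :=
    hζ.map_of_injective (f := (HahnSeries.C : kA A →+* LaurentSeries (kA A)))
      HahnSeries.C_injective
  obtain ⟨i, -, hi⟩ := hζC.eq_pow_of_pow_eq_one (ξ := redA A a'' / redA A b') (by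
    rw [div_pow, hid2, div_self (pow_ne_zero p hra'')])
  obtain ⟨b'', hb''⟩ : ∃ x : LaurentSeries A, x = HahnSeries.C (ζ ^ i) * b' := ⟨_, rfl⟩
  have hredeq : redA A a'' = redA A b'' := by
    rw [hb'', map_mul (redA A), Step.redA_C, map_pow (IsLocalRing.residue A), map_pow HahnSeries.C,
      hi, div_mul_cancel₀ _ hrb']
  have hincb'' : incA A b'' = HahnSeries.C ((ζ : Kb) ^ i) * incA A b' := by
    rw [hb'', map_mul, Step.incA_C]
    push_cast
    rfl
  -- the elements of `FN N`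
  let B' : FN N := ⟨incA A b', hb'F⟩
  let Z : FN N := ⟨HahnSeries.C ((ζ : Kb) ^ i), Step.C_mem N _⟩
  have hB'0 : B' ≠ 0 := by
    intro h
    have h1 : incA A b' = 0 := congrArg Subtype.val h
    have h2 : b' = 0 := incA_injective A (by rw [h1, map_zero])
    exact hrb' (by rw [h2, map_zero])
  have hZp : Z ^ p = 1 := by
    apply Subtype.ext
    show (HahnSeries.C ((ζ : Kb) ^ i) : LaurentSeries Kb) ^ p = 1
    rw [← map_pow, ← pow_mul, mul_comm, pow_mul]
    have : (ζ : Kb) ^ p = 1 := by exact_mod_cast congrArg Subtype.val hζp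
    rw [this, one_pow, map_one]
  have hZ0 : Z ≠ 0 := by
    rintro h
    rw [h, zero_pow hp.ne_zero] at hZp
    exact zero_ne_one hZp
  have hW : (w * B' / (Z * B')) ^ p = a / b := by
    rw [mul_div_mul_right _ _ hB'0, div_pow, hZp, div_one, hw]
  have e1 : (w * B').1 = incA A a'' := hinc''.symm
  have e2 : (Z * B').1 = incA A b'' := hincb''.symm
  obtain ⟨w₂, hw₂⟩ := h2 A hA (w * B') (Z * B')
    (by rw [e1]; exact intA_incA A _) (by rw [e2]; exact intA_incA A _)
    (by rw [e2, smallA_incA_iff, ← hredeq]; exact hra'')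
    (by rw [e1, e2, ← map_sub, smallA_incA_iff, map_sub, hredeq, sub_self])
    (fun v => by
      have h3 := hord v
      rw [← hW, ← zpow_natCast, Place.ord_zpow] at h3
      push_cast at h3
      exact (mul_dvd_mul_iff_left (by exact_mod_cast hp.ne_zero)).1 h3)
  exact ⟨w₂, by rw [mul_comm, pow_mul, hw₂, hW]⟩

end Fermat.Agent.T24.T18
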